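import Fermat.Agent.S48.E1.QExp

/-!
# S48 / E1 : EXPORT

`main`: for a prime `ℓ ≥ 5` there is `g ∈ M_1(Γ₁(ℓ))` with `a_0(g) = 1` and, for every `γ ∈ Γ₀(ℓ)` with lower right entry `d`:
`g ∣ γ ∈ M_1(Γ₁(ℓ))`, `d a_0(g ∣ γ) ≡ 1`, `a_n(g ∣ γ) ≡ 0` (`n ≥ 1`) modulo `λ = 1 - ζ_ℓ` (relation `CongL`, see `Defs.lean`).

How to use `CongL (lam ℓ) x c`:
* `CongL.valuation_lt_one v hv (hl : v (lam ℓ) < 1) : v (x - c) < 1`, with `valuation_lam_lt_one`;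
* `CongL.exists_integral` for ring homomorphisms `φ : ℤ̄ → k`, with `map_lam_eq_zero`.
-/

set_option autoImplicit false

open UpperHalfPlane hiding I
open Complex Matrix Filter Topology CongruenceSubgroup Matrix.SpecialLinearGroup
open scoped MatrixGroups Manifold ModularForm

namespace Fermat.Agent.S48.E1

open Fermat.Agent.S48.EIS
open Fermat.Agent.S23 (Nice qe)

/-- `v(λ) < 1` as soon as `v(ℓ) < 1`. -/
theorem valuation_lam_lt_one {ℓ : ℕ} (hp : ℓ.Prime) (h5 : 5 ≤ ℓ) {Γ₀ : Type*}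
    [LinearOrderedCommGroupWithZero Γ₀] (v : Valuation ℂ Γ₀)
    (hv : ∀ x : ℂ, IsIntegral ℤ x → v x ≤ 1) (hl : v (ℓ : ℂ) < 1) : v (lam ℓ) < 1 := by
  have : NeZero ℓ := ⟨hp.ne_zero⟩
  have hodd : Odd ℓ := hp.odd_of_ne_two (by omega)
  obtain ⟨y, hy, h⟩ := lam_pow_eq hp hodd
  have h1 := congrArg v h
  rw [map_pow, map_mul] at h1
  have h2 : v (lam ℓ) ^ ℓ < 1 := by
    rw [h1]
    exact lt_of_le_of_lt (mul_le_of_le_one_right' (hv y hy)) hl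
  exact (pow_lt_one_iff hp.ne_zero).mp h2

/-- `φ(λ) = 0` in characteristic `ℓ`. -/
theorem map_lam_eq_zero {ℓ : ℕ} (hp : ℓ.Prime) (h5 : 5 ≤ ℓ) (hl : IsIntegral ℤ (lam ℓ)) (k : Type)
    [Field k] [CharP k ℓ] (φ : integralClosure ℤ ℂ →+* k) : φ ⟨lam ℓ, hl⟩ = 0 := by
  have : NeZero ℓ := ⟨hp.ne_zero⟩
  have hodd : Odd ℓ := hp.odd_of_ne_two (by omega)
  obtain ⟨y, hy, h⟩ := lam_pow_eq hp hodd
  have h1 : (⟨lam ℓ, hl⟩ : integralClosure ℤ ℂ) ^ ℓ = (ℓ : integralClosure ℤ ℂ) * ⟨y, hy⟩ := by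
    apply Subtype.ext
    push_cast
    exact h
  have h2 := congrArg φ h1
  rw [map_pow, map_mul, map_natCast, CharP.cast_eq_zero, zero_mul] at h2
  exact (pow_eq_zero_iff hp.ne_zero).mp h2

/-- **EXPORT of E1.** -/
theorem main (ℓ : ℕ) (hp : ℓ.Prime) (h5 : 5 ≤ ℓ) :
    ∃ g : ModularForm (Gamma1 ℓ) 1, ModularFormClass.qCoeff g 0 = 1 ∧
      ∀ γ : SL(2, ℤ), (ℓ : ℤ) ∣ γ 1 0 →
        (∃ g' : ModularForm (Gamma1 ℓ) 1, (g' : ℍ → ℂ) = (g : ℍ → ℂ) ∣[(1 : ℤ)] (mapGL ℝ γ)) ∧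
        CongL (lam ℓ) (((γ 1 1 : ℤ) : ℂ) *
          ModularFormClass.qCoeff ((g : ℍ → ℂ) ∣[(1 : ℤ)] (mapGL ℝ γ)) 0) 1 ∧
        ∀ n : ℕ, 0 < n →
          CongL (lam ℓ) (ModularFormClass.qCoeff ((g : ℍ → ℂ) ∣[(1 : ℤ)] (mapGL ℝ γ)) n) 0 := by
  have : NeZero ℓ := ⟨hp.ne_zero⟩
  have : Fact ℓ.Prime := ⟨hp⟩
  have : Fact (1 < ℓ) := ⟨hp.one_lt⟩
  have hodd : Odd ℓ := hp.odd_of_ne_two (by omega)
  have h1 : (1 : ZMod ℓ) ≠ 0 := one_ne_zero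
  obtain ⟨g, hg⟩ := exists_modularForm_GG hodd 1 h1
  refine ⟨g, ?_, fun γ hγ => ?_⟩
  · rw [hg]
    exact (qCoeff_GG hodd 1 h1).1
  · have hγ0 : γ ∈ Gamma0 ℓ := by
      rw [Gamma0_mem]
      exact (ZMod.intCast_zmod_eq_zero_iff_dvd _ _).mpr hγ
    have hd : ((γ 1 1 : ℤ) : ZMod ℓ) ≠ 0 := by
      intro h0
      have hdet := Matrix.det_fin_two γ.1
      rw [γ.2] at hdet
      have h2 := congrArg (Int.cast : ℤ → ZMod ℓ) hdet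
      push_cast at h2
      have h3 : ((γ.1 1 0 : ℤ) : ZMod ℓ) = 0 := (ZMod.intCast_zmod_eq_zero_iff_dvd _ _).mpr hγ
      have h4 : ((γ.1 1 1 : ℤ) : ZMod ℓ) = 0 := h0
      rw [h3, h4] at h2
      simp at h2
    have hsl : (g : ℍ → ℂ) ∣[(1 : ℤ)] (mapGL ℝ γ) =
        (kap ℓ 1 / kap ℓ ((γ 1 1 : ℤ) : ZMod ℓ)) • GG ℓ ((γ 1 1 : ℤ) : ZMod ℓ) := by
      have h2 := GG_slash_Gamma0 hodd 1 γ hγ0 (by rw [one_mul]; exact hd)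
      rw [one_mul] at h2
      rw [hg, ← h2]
      rfl
    have hq : ∀ n : ℕ, ModularFormClass.qCoeff ((g : ℍ → ℂ) ∣[(1 : ℤ)] (mapGL ℝ γ)) n =
        kap ℓ 1 / kap ℓ ((γ 1 1 : ℤ) : ZMod ℓ) *
          ModularFormClass.qCoeff (GG ℓ ((γ 1 1 : ℤ) : ZMod ℓ)) n := by
      intro n
      rw [hsl]
      unfold ModularFormClass.qCoeff
      have h2 := (nice_GG hodd _ hd).qe_smul (kap ℓ 1 / kap ℓ ((γ 1 1 : ℤ) : ZMod ℓ))
      have h3 := congrArg (PowerSeries.coeff n) h2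
      rw [PowerSeries.coeff_smul, smul_eq_mul] at h3
      exact h3
    obtain ⟨hc0, hcn⟩ := qCoeff_GG hodd _ hd
    refine ⟨?_, ?_, fun n hn => ?_⟩
    · obtain ⟨gd, hgd⟩ := exists_modularForm_GG hodd _ hd
      refine ⟨(kap ℓ 1 / kap ℓ ((γ 1 1 : ℤ) : ZMod ℓ)) • gd, ?_⟩
      rw [hsl, ← hgd]
      rfl
    · rw [hq, hc0, mul_one]
      have h2 := kap_ratio_congL hp h5 1 _ h1 hd (γ 1 1) rfl
      rw [ZMod.val_one, Nat.cast_one] at h2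
      exact h2
    · rw [hq]
      obtain ⟨y, hy, hxy⟩ := hcn n hn
      exact kap_ratio_mul_congL hp h5 1 _ h1 hd _ y hy hxy

end Fermat.Agent.S48.E1
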