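import Fermat.Agent.S48.EIS.NonVan
import Fermat.Agent.S23.Nice
import Fermat.Prelude.Def_FLTPrelim_Modularity

/-!
# S48 / E1 : a modular form `𝔾` of weight one on `Γ₁(ℓ)` with `𝔾 ≡ 1`, `⟨d⟩ 𝔾 ≡ d⁻¹ (mod 1 - ζ_ℓ)` (definitions)

`ζ = e(1/ℓ)`, `λ = 1 - ζ`, `w_a = ζ^a`, `t_a = 1 + 4 w_a + w_a²`, `S_a = ∑_{i < a} ζ^i` (so `1 - w_a = λ S_a`),
`κ_a = cst_3(a) / cst_4(a)`,   `𝔾_a = κ_a G_{4,(0,a)} / G_{3,(0,a)}`.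
-/

set_option autoImplicit false

open UpperHalfPlane hiding I
open Complex

namespace Fermat.Agent.S48.E1

open Fermat.Agent.S48.EIS

noncomputable section

/-- `λ = 1 - ζ`. -/
def lam (ℓ : ℕ) : ℂ := 1 - zeta ℓ

/-- `w_a = ζ^a`. -/
def ww (ℓ : ℕ) (a : ZMod ℓ) : ℂ := zeta ℓ ^ a.val

/-- `t_a = 1 + 4 w_a + w_a²`. -/
def tt (ℓ : ℕ) (a : ZMod ℓ) : ℂ := 1 + 4 * ww ℓ a + ww ℓ a ^ 2

/-- `S_a = ∑_{i < a} ζ^i`. -/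
def SS (ℓ : ℕ) (a : ZMod ℓ) : ℂ := ∑ i ∈ Finset.range a.val, zeta ℓ ^ i

/-- `κ_a = cst_3(a) / cst_4(a)`. -/
def kap (ℓ : ℕ) (a : ZMod ℓ) : ℂ := cst ℓ 3 a / cst ℓ 4 a

/-- `𝔾_a = κ_a G_{4,(0,a)} / G_{3,(0,a)}`. -/
def GG (ℓ : ℕ) (a : ZMod ℓ) : ℍ → ℂ := fun τ => kap ℓ a * (G ℓ 4 ![0, a] τ / G ℓ 3 ![0, a] τ)

/-- `x ≡ c (mod l)` in the localisation of `ℤ̄` at the multiplicative set `1 + l ℤ̄`. -/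
def CongL (l x c : ℂ) : Prop :=
  ∃ z y : ℂ, IsIntegral ℤ z ∧ IsIntegral ℤ y ∧ (1 + l * z) * (x - c) = l * y

end

end Fermat.Agent.S48.E1
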