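import Fermat.Agent.S48.E1.Kappa

/-!
# S48 / E1 : `𝔾_a` is a modular form of weight one on `Γ₁(ℓ)`; action of `Γ₀(ℓ)`
TASK S48/E1-Form.   Black boxes: `EIS.G_slash`, `EIS.G_mdiff`, `EIS.G3_ne_zero`, `EIS.tendsto_G4_div_G3`,
`EIS.vecMul_Gamma0/1`, `EIS.exists_modularForm_of`, `EIS.isBoundedAtImInfty_of_tendsto`, `kap_ne_zero`.
-/

set_option autoImplicit false

open UpperHalfPlane hiding I
open Complex Matrix Filter Topology CongruenceSubgroup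
open scoped MatrixGroups Manifold ModularForm

namespace Fermat.Agent.S48.E1

open Fermat.Agent.S48.EIS

variable {ℓ : ℕ} [NeZero ℓ]

/-- `v γ ≠ 0` for `v ≠ 0` (multiply by `γ⁻¹`). -/
theorem vecMul_ne_zero (v : Fin 2 → ZMod ℓ) (hv : v ≠ 0) (γ : SL(2, ℤ)) :
    (v ᵥ* γ : Fin 2 → ZMod ℓ) ≠ 0 := by
  intro h
  apply hv
  have h1 := Basic_vecMul_vecMul_inv v γ
  rw [h, zero_vecMul] at h1
  exact h1.symm

theorem vec_ne_zero (a : ZMod ℓ) (ha : a ≠ 0) : (![0, a] : Fin 2 → ZMod ℓ) ≠ 0 := by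
  intro h
  apply ha
  simpa using congrFun h 1

/-- the slash of `𝔾_a` by any `γ ∈ SL₂(ℤ)` (`ModularForm.div_slash_SL2 4 3`, `G_slash`; the constant `κ_a` comes out:
pointwise with `ModularForm.SL_slash_apply`). -/
theorem GG_slash (a : ZMod ℓ) (γ : SL(2, ℤ)) :
    GG ℓ a ∣[(1 : ℤ)] γ =
      fun τ => kap ℓ a * (G ℓ 4 ((![0, a] : Fin 2 → ZMod ℓ) ᵥ* γ) τ / G ℓ 3 ((![0, a] : Fin 2 → ZMod ℓ) ᵥ* γ) τ) := by
  have h0 : GG ℓ a = kap ℓ a • (G ℓ 4 ![0, a] / G ℓ 3 ![0, a]) := by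
    funext τ
    simp [GG]
  have h1 : ((1 : ℤ)) = ((4 : ℕ) : ℤ) - ((3 : ℕ) : ℤ) := by norm_num
  rw [h0, ModularForm.SL_smul_slash, h1, ModularForm.div_slash_SL2, G_slash, G_slash]
  funext τ
  simp

/-- `𝔾_a ∣ γ = (κ_a / κ_{ad}) 𝔾_{ad}` for `γ ∈ Γ₀(ℓ)` with lower right entry `d`. -/
theorem GG_slash_Gamma0 (hodd : Odd ℓ) (a : ZMod ℓ) (γ : SL(2, ℤ)) (hγ : γ ∈ Gamma0 ℓ)
    (had : a * ((γ 1 1 : ℤ) : ZMod ℓ) ≠ 0) :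
    GG ℓ a ∣[(1 : ℤ)] γ =
      (kap ℓ a / kap ℓ (a * ((γ 1 1 : ℤ) : ZMod ℓ))) • GG ℓ (a * ((γ 1 1 : ℤ) : ZMod ℓ)) := by
  rw [GG_slash, vecMul_Gamma0 a γ hγ]
  funext τ
  have hk := kap_ne_zero hodd _ had
  simp only [GG, Pi.smul_apply, smul_eq_mul]
  rw [← mul_assoc, div_mul_cancel₀ _ hk]

theorem GG_slash_Gamma1 (a : ZMod ℓ) (γ : SL(2, ℤ)) (hγ : γ ∈ Gamma1 ℓ) :
    GG ℓ a ∣[(1 : ℤ)] γ = GG ℓ a := by
  rw [GG_slash, vecMul_Gamma1 a γ hγ]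
  rfl

/-- (`UpperHalfPlane.mdifferentiable_iff`, `DifferentiableOn.div`, `G3_ne_zero`.) -/
theorem GG_mdiff (hodd : Odd ℓ) (a : ZMod ℓ) (ha : a ≠ 0) : MDiff (GG ℓ a) := by
  have h4 := UpperHalfPlane.mdifferentiable_iff.mp
    (G_mdiff (M := ℓ) (k := 4) (by norm_num) ![0, a])
  have h3 := UpperHalfPlane.mdifferentiable_iff.mp
    (G_mdiff (M := ℓ) (k := 3) (by norm_num) ![0, a])
  rw [UpperHalfPlane.mdifferentiable_iff]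
  have := (h4.div h3 (fun z _ => G3_ne_zero hodd _ (vec_ne_zero a ha) _)).const_mul (kap ℓ a)
  exact this

theorem GG_slash_isBoundedAtImInfty (hodd : Odd ℓ) (a : ZMod ℓ) (ha : a ≠ 0) (γ : SL(2, ℤ)) :
    IsBoundedAtImInfty (GG ℓ a ∣[(1 : ℤ)] γ) := by
  rw [GG_slash]
  exact isBoundedAtImInfty_of_tendsto
    ((tendsto_G4_div_G3 hodd _ (vecMul_ne_zero _ (vec_ne_zero a ha) γ)).const_mul (kap ℓ a))

/-- **`𝔾_a ∈ M_1(Γ₁(ℓ))`.** -/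
theorem exists_modularForm_GG (hodd : Odd ℓ) (a : ZMod ℓ) (ha : a ≠ 0) :
    ∃ g : ModularForm (Gamma1 ℓ) 1, (g : ℍ → ℂ) = GG ℓ a :=
  exists_modularForm_of (Gamma1 ℓ) 1 (GG ℓ a) (GG_mdiff hodd a ha)
    (fun γ hγ => GG_slash_Gamma1 a γ hγ) (fun g => GG_slash_isBoundedAtImInfty hodd a ha g)

end Fermat.Agent.S48.E1
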