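import Fermat.Agent.S48.E1.Defs

/-!
# S48 / E1 : formal lemmas (power series, the relation `CongL`)
TASK S48/E1-Formal.   Mathlib only (+ the definition of `CongL`).
-/

set_option autoImplicit false

namespace Fermat.Agent.S48.E1

open PowerSeries

/-- `X B = A`, `A = 1 + ...`, `B = 1 + ...`, `B ≡ 1 (mod l)`, `t A ≡ t (mod l)`  `⇒`  `X = 1 + ...`, `t X ≡ t (mod l)`.
Strong induction on `n`: `coeff n (X * B) = ∑_{(i,j) ∈ antidiagonal n} x_i b_j`
(`PowerSeries.coeff_mul`, `Finset.Nat.sum_antidiagonal_eq_sum_range_succ_mk`), so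
`t x_n = t a_n - t b_n - ∑_{0 < i < n} (t x_i) b_{n-i}`. -/
theorem coeff_congr (X A B : PowerSeries ℂ) (t l : ℂ) (ht : IsIntegral ℤ t) (hl : IsIntegral ℤ l)
    (hXB : X * B = A) (hB0 : coeff 0 B = 1) (hA0 : coeff 0 A = 1)
    (hB : ∀ n : ℕ, 0 < n → ∃ y : ℂ, IsIntegral ℤ y ∧ coeff n B = l * y)
    (hA : ∀ n : ℕ, 0 < n → ∃ y : ℂ, IsIntegral ℤ y ∧ t * coeff n A = l * y) :
    coeff 0 X = 1 ∧ ∀ n : ℕ, 0 < n → ∃ y : ℂ, IsIntegral ℤ y ∧ t * coeff n X = l * y := by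
  have hX0 : coeff 0 X = 1 := by
    have h := congrArg (coeff 0) hXB
    rw [PowerSeries.coeff_mul, Finset.Nat.antidiagonal_zero, Finset.sum_singleton, hB0, hA0,
      mul_one] at h
    exact h
  refine ⟨hX0, fun n => ?_⟩
  induction n using Nat.strong_induction_on with
  | _ n ih =>
    intro hn
    have hI : ∀ k, k < n → IsIntegral ℤ (t * coeff k X) := by
      intro k hk
      rcases Nat.eq_zero_or_pos k with rfl | hk0
      · rw [hX0, mul_one]; exact ht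
      · obtain ⟨y, hy, hyy⟩ := ih k hk hk0
        rw [hyy]; exact hl.mul hy
    have hsum : ∃ y : ℂ, IsIntegral ℤ y ∧
        ∑ k ∈ Finset.range n, t * (coeff k X * coeff (n - k) B) = l * y := by
      refine Finset.sum_induction _ (fun c : ℂ => ∃ y : ℂ, IsIntegral ℤ y ∧ c = l * y) ?_ ?_ ?_
      · rintro a b ⟨y, hy, rfl⟩ ⟨y', hy', rfl⟩
        exact ⟨y + y', hy.add hy', by ring⟩
      · exact ⟨0, isIntegral_zero, by ring⟩
      · intro k hk
        have hk' : k < n := Finset.mem_range.mp hk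
        obtain ⟨y, hy, hyy⟩ := hB (n - k) (Nat.sub_pos_of_lt hk')
        exact ⟨t * coeff k X * y, (hI k hk').mul hy, by rw [hyy]; ring⟩
    obtain ⟨y1, hy1, hs⟩ := hsum
    obtain ⟨y2, hy2, ha⟩ := hA n hn
    have h := congrArg (coeff n) hXB
    rw [PowerSeries.coeff_mul, Finset.Nat.sum_antidiagonal_eq_sum_range_succ_mk,
      Finset.sum_range_succ, Nat.sub_self, hB0, mul_one] at h
    refine ⟨y2 - y1, hy2.sub hy1, ?_⟩
    rw [← Finset.mul_sum] at hs
    have h2 : t * coeff n X = t * coeff n A -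
        t * ∑ k ∈ Finset.range n, coeff k X * coeff (n - k) B := by
      rw [← h]; ring
    rw [h2, ha, hs]; ring

/-- the way to prove `CongL`. -/
theorem congL_of_mul {l D e z x c y : ℂ} (he : IsIntegral ℤ e) (hz : IsIntegral ℤ z)
    (hy : IsIntegral ℤ y) (hD : D * e = 1 + l * z) (h : D * (x - c) = l * y) : CongL l x c := by
  refine ⟨z, e * y, hz, he.mul hy, ?_⟩
  rw [← hD]
  linear_combination e * h

/-- `CongL` and valuations: the shape used by `DS` (`v (x - c) < 1`). -/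
theorem CongL.valuation_lt_one {Γ₀ : Type*} [LinearOrderedCommGroupWithZero Γ₀] (v : Valuation ℂ Γ₀)
    (hv : ∀ x : ℂ, IsIntegral ℤ x → v x ≤ 1) {l x c : ℂ} (hl : v l < 1) (h : CongL l x c) :
    v (x - c) < 1 := by
  obtain ⟨z, y, hz, hy, h⟩ := h
  have h1 : v (l * z) < 1 := by
    rw [map_mul]
    exact lt_of_le_of_lt (mul_le_of_le_one_right' (hv z hz)) hl
  have h2 : v (1 + l * z) = 1 := Valuation.map_one_add_of_lt v h1
  have h3 := congrArg v h
  rw [map_mul, h2, one_mul, map_mul] at h3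
  rw [h3]
  exact lt_of_le_of_lt (mul_le_of_le_one_right' (hv y hy)) hl

/-- `CongL` and ring homomorphisms `φ : ℤ̄ → k` with `φ(l) = 0`. -/
theorem CongL.exists_integral {l x c : ℂ} (hl : IsIntegral ℤ l) (h : CongL l x c) :
    ∃ D y : integralClosure ℤ ℂ, (D : ℂ) * (x - c) = y ∧
      ∀ (k : Type) [Field k] (φ : integralClosure ℤ ℂ →+* k), φ ⟨l, hl⟩ = 0 → φ D = 1 ∧ φ y = 0 := by
  obtain ⟨z, y, hz, hy, h⟩ := h
  refine ⟨1 + ⟨l, hl⟩ * ⟨z, hz⟩, ⟨l, hl⟩ * ⟨y, hy⟩, ?_, fun k _ φ hφ => ⟨?_, ?_⟩⟩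
  · push_cast
    exact h
  · rw [map_add, map_one, map_mul, hφ, zero_mul, add_zero]
  · rw [map_mul, hφ, zero_mul]

end Fermat.Agent.S48.E1
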