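import Fermat.Agent.S48.E1.Units

/-!
# S48 / E1 : the constants `κ_a`
TASK S48/E1-Kappa.   From `EIS.cst_eq`, `EIS.K_ne_zero`, `Units.lean` (black boxes); `field_simp`.
-/

set_option autoImplicit false

open Complex

namespace Fermat.Agent.S48.E1

open Fermat.Agent.S48.EIS

variable {ℓ : ℕ} [NeZero ℓ]

theorem cst_ne_zero (hodd : Odd ℓ) {k : ℕ} (hk : k = 3 ∨ k = 4) (a : ZMod ℓ) (ha : a ≠ 0) :
    cst ℓ k a ≠ 0 := by
  rw [cst_eq hk a ha]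
  refine mul_ne_zero (K_ne_zero k) (Pk_ne_zero hodd hk ?_ (zeta_pow_val_ne_one a ha))
  rw [← pow_mul, mul_comm, pow_mul, zeta_pow_M, one_pow]

/-- `κ_a = (K_3 / K_4) (1 + w)(1 - w) / t`. -/
theorem kap_eq (a : ZMod ℓ) (ha : a ≠ 0) :
    kap ℓ a = K ℓ 3 / K ℓ 4 * ((1 + ww ℓ a) * (1 - ww ℓ a) / tt ℓ a) := by
  have h1 := one_sub_ww_ne_zero a ha
  have h2 := tt_ne_zero a
  have h3 := ww_ne_zero a
  have h4 : K ℓ 4 ≠ 0 := K_ne_zero 4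
  rw [kap, cst_eq (Or.inl rfl) a ha, cst_eq (Or.inr rfl) a ha]
  have e3 : Pk 3 (zeta ℓ ^ a.val) = ww ℓ a * (1 + ww ℓ a) / (1 - ww ℓ a) ^ 3 := by
    rw [Pk, if_pos rfl, ww]
  have e4 : Pk 4 (zeta ℓ ^ a.val) = ww ℓ a * tt ℓ a / (1 - ww ℓ a) ^ 4 := by
    rw [Pk, if_neg (by norm_num), if_pos rfl, tt, ww]
  rw [e3, e4]
  field_simp

theorem kap_ne_zero (hodd : Odd ℓ) (a : ZMod ℓ) (ha : a ≠ 0) : kap ℓ a ≠ 0 :=
  div_ne_zero (cst_ne_zero hodd (Or.inl rfl) a ha) (cst_ne_zero hodd (Or.inr rfl) a ha)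

/-- `(κ_a / κ_b) t_a (1 + w_b) S_b = (1 + w_a) t_b S_a`. -/
theorem kap_ratio (hodd : Odd ℓ) (hℓ : 1 < ℓ) (a b : ZMod ℓ) (ha : a ≠ 0) (hb : b ≠ 0) :
    kap ℓ a / kap ℓ b * (tt ℓ a * (1 + ww ℓ b) * SS ℓ b) = (1 + ww ℓ a) * tt ℓ b * SS ℓ a := by
  have h1b := one_sub_ww_ne_zero b hb
  have h2a := tt_ne_zero a
  have h2b := tt_ne_zero b
  have h3 : K ℓ 3 ≠ 0 := K_ne_zero 3
  have h4 : K ℓ 4 ≠ 0 := K_ne_zero 4
  have h5b := one_add_ww_ne_zero hodd b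
  rw [kap_eq a ha, kap_eq b hb, one_sub_ww a]
  rw [one_sub_ww b] at h1b ⊢
  have hl : lam ℓ ≠ 0 := left_ne_zero_of_mul h1b
  have hS : SS ℓ b ≠ 0 := right_ne_zero_of_mul h1b
  field_simp

private theorem cg_mul {l x x' c c' y y' : ℂ} (hl : IsIntegral ℤ l) (hc : IsIntegral ℤ c)
    (hc' : IsIntegral ℤ c') (hy : IsIntegral ℤ y) (hy' : IsIntegral ℤ y')
    (hx : x = c + l * y) (hx' : x' = c' + l * y') :
    ∃ z : ℂ, IsIntegral ℤ z ∧ x * x' = c * c' + l * z :=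
  ⟨c * y' + c' * y + l * y * y', ((hc.mul hy').add (hc'.mul hy)).add ((hl.mul hy).mul hy'), by
    rw [hx, hx']; ring⟩

private theorem isInt_nat (n : ℕ) : IsIntegral ℤ (n : ℂ) := by
  have : (n : ℂ) = algebraMap ℤ ℂ (n : ℤ) := by simp
  rw [this]; exact isIntegral_algebraMap

private theorem isInt_int (n : ℤ) : IsIntegral ℤ (n : ℂ) := by
  have : (n : ℂ) = algebraMap ℤ ℂ n := by simp
  rw [this]; exact isIntegral_algebraMap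

/-- `D = t_a (1 + w_b) S_b ≡ 12 b`. -/
private theorem D_congr (a b : ZMod ℓ) :
    ∃ y : ℂ, IsIntegral ℤ y ∧ tt ℓ a * (1 + ww ℓ b) * SS ℓ b = ((12 * b.val : ℤ) : ℂ) + lam ℓ * y := by
  obtain ⟨y1, hy1, e1⟩ := tt_congr a
  obtain ⟨y2, hy2, e2⟩ := one_add_ww_congr b
  obtain ⟨y3, hy3, e3⟩ := SS_congr b
  obtain ⟨z1, hz1, f1⟩ := cg_mul isIntegral_lam (isInt_nat 6) (isInt_nat 2) hy1 hy2
    (by simpa using e1) (by simpa using e2)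
  obtain ⟨z2, hz2, f2⟩ := cg_mul isIntegral_lam ((isInt_nat 6).mul (isInt_nat 2)) (isInt_nat b.val)
    hz1 hy3 f1 e3
  refine ⟨z2, hz2, ?_⟩
  rw [f2]; push_cast; ring

private theorem D_inv (hp : ℓ.Prime) (h5 : 5 ≤ ℓ) (a b : ZMod ℓ) (hb : b ≠ 0) :
    ∃ e z : ℂ, IsIntegral ℤ e ∧ IsIntegral ℤ z ∧
      tt ℓ a * (1 + ww ℓ b) * SS ℓ b * e = 1 + lam ℓ * z := by
  obtain ⟨y, hy, hD⟩ := D_congr a b
  refine exists_inv hp.one_lt (12 * b.val : ℤ) ?_ _ y hy hD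
  have hpz : Prime (ℓ : ℤ) := Nat.prime_iff_prime_int.1 hp
  rw [isCoprime_comm, Prime.coprime_iff_not_dvd hpz]
  intro hdvd
  rcases hpz.dvd_or_dvd hdvd with h | h
  · have h12 : ℓ ∣ 12 := by exact_mod_cast h
    have hle : ℓ ≤ 12 := Nat.le_of_dvd (by norm_num) h12
    interval_cases ℓ <;> revert hp <;> revert h12 <;> decide
  · have h2 : ℓ ∣ b.val := by exact_mod_cast h
    have h3 : b.val < ℓ := ZMod.val_lt b
    have h4 : b.val = 0 := Nat.eq_zero_of_dvd_of_lt h2 h3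
    exact hb ((ZMod.val_eq_zero b).1 h4)

/-- **`b (κ_a / κ_b) ≡ a (mod λ)`** for `ℓ ≥ 5` prime (`m` any integer in the class `b`).
`D = t_a (1 + w_b) S_b ≡ 12 b`, invertible mod `λ` (`exists_inv`);
`D (m r - a) = m (1 + w_a) t_b S_a - a D ≡ 12 a m - 12 a b ≡ 0` (`intCast_congr`); `congL_of_mul`. -/
theorem kap_ratio_congL (hp : ℓ.Prime) (h5 : 5 ≤ ℓ) (a b : ZMod ℓ) (ha : a ≠ 0) (hb : b ≠ 0)
    (m : ℤ) (hm : (m : ZMod ℓ) = b) :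
    CongL (lam ℓ) ((m : ℂ) * (kap ℓ a / kap ℓ b)) (a.val : ℂ) := by
  have hodd : Odd ℓ := hp.odd_of_ne_two (by omega)
  obtain ⟨e, z, he, hz, hDe⟩ := D_inv hp h5 a b hb
  have hr := kap_ratio hodd hp.one_lt a b ha hb
  obtain ⟨y1, hy1, e1⟩ := D_congr a b
  obtain ⟨y2, hy2, e2⟩ := D_congr b a
  obtain ⟨y3, hy3, e3⟩ := intCast_congr hp.one_lt m (b.val : ℤ) (by rw [hm]; simp)
  refine congL_of_mul (y := (m : ℂ) * y2 + 12 * (a.val : ℂ) * y3 - (a.val : ℂ) * y1) he hz ?_ hDe ?_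
  · exact (((isInt_int m).mul hy2).add (((isInt_nat 12).mul (isInt_nat a.val)).mul hy3)).sub
      ((isInt_nat a.val).mul hy1)
  · have h1 : tt ℓ a * (1 + ww ℓ b) * SS ℓ b * ((m : ℂ) * (kap ℓ a / kap ℓ b) - (a.val : ℂ))
        = (m : ℂ) * (tt ℓ b * (1 + ww ℓ a) * SS ℓ a)
          - (a.val : ℂ) * (tt ℓ a * (1 + ww ℓ b) * SS ℓ b) := by
      have : tt ℓ b * (1 + ww ℓ a) * SS ℓ a = (1 + ww ℓ a) * tt ℓ b * SS ℓ a := by ring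
      rw [this, ← hr]; ring
    rw [h1, e1, e2]
    push_cast at e3 ⊢
    have : (m : ℂ) * (12 * (a.val : ℂ)) = ((b.val : ℂ) + lam ℓ * y3) * (12 * (a.val : ℂ)) := by
      rw [← e3]
    linear_combination this

/-- `κ_a / κ_b` times something `≡ 0` with denominator `t_b` is `≡ 0`. -/
theorem kap_ratio_mul_congL (hp : ℓ.Prime) (h5 : 5 ≤ ℓ) (a b : ZMod ℓ) (ha : a ≠ 0) (hb : b ≠ 0)
    (x y : ℂ) (hy : IsIntegral ℤ y) (hx : tt ℓ b * x = lam ℓ * y) :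
    CongL (lam ℓ) (kap ℓ a / kap ℓ b * x) 0 := by
  have hodd : Odd ℓ := hp.odd_of_ne_two (by omega)
  obtain ⟨e, z, he, hz, hDe⟩ := D_inv hp h5 a b hb
  have hr := kap_ratio hodd hp.one_lt a b ha hb
  refine congL_of_mul (y := (1 + ww ℓ a) * SS ℓ a * y) he hz ?_ hDe ?_
  · exact (((isIntegral_one).add (isIntegral_ww a)).mul (isIntegral_SS a)).mul hy
  · have h1 : tt ℓ a * (1 + ww ℓ b) * SS ℓ b * (kap ℓ a / kap ℓ b * x - 0)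
        = (kap ℓ a / kap ℓ b * (tt ℓ a * (1 + ww ℓ b) * SS ℓ b)) * x := by ring
    rw [h1, hr]
    linear_combination ((1 + ww ℓ a) * SS ℓ a) * hx

end Fermat.Agent.S48.E1
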