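import Fermat.Agent.S48.E1.Form

/-!
# S48 / E1 : the `q`-expansion of `𝔾_a`
TASK S48/E1-QExp.   Black boxes: `EIS.hasSum_G₀`, `EIS.qc₀_eq`, `EIS.exists_modularForm`, `exists_modularForm_GG`,
`coeff_congr`, `coef₀_div_Pk3/4`, `S23.Nice` (`qe_mul`, `qe_smul`).
-/

set_option autoImplicit false

open UpperHalfPlane hiding I
open Complex Matrix Filter Topology CongruenceSubgroup
open scoped MatrixGroups Manifold ModularForm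

namespace Fermat.Agent.S48.E1

open Fermat.Agent.S48.EIS
open Fermat.Agent.S23 (Nice qe)

variable {ℓ : ℕ} [NeZero ℓ]

/-- a modular form on `Γ₁(ℓ)` is nice (`S23.IsMF.nice_of_strictPeriods`, `CongruenceSubgroup.strictPeriods_Gamma1`). -/
theorem nice_of_Gamma1 {k : ℤ} (f : ModularForm (Gamma1 ℓ) k) : Nice (f : ℍ → ℂ) := by
  refine Fermat.Agent.S23.IsMF.nice_of_strictPeriods (Γ := (Gamma1 ℓ : Subgroup (GL (Fin 2) ℝ))) ?_ ⟨f, rfl⟩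
  simp [CongruenceSubgroup.strictPeriods_Gamma1]

theorem nice_G₀ {k : ℕ} (hk : 3 ≤ k) (a : ZMod ℓ) : Nice (G ℓ k ![0, a]) := by
  obtain ⟨f, hf⟩ := EIS.exists_modularForm (M := ℓ) hk a
  rw [← hf]
  exact nice_of_Gamma1 f

theorem nice_GG (hodd : Odd ℓ) (a : ZMod ℓ) (ha : a ≠ 0) : Nice (GG ℓ a) := by
  obtain ⟨f, hf⟩ := exists_modularForm_GG hodd a ha
  rw [← hf]
  exact nice_of_Gamma1 f

/-- uniqueness of the `q`-expansion (Mathlib `qExpansion_coeff_unique`, or `HasFPowerSeriesAt.eq_formalMultilinearSeries`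
for the cusp function). -/
theorem qe_coeff_of_hasSum {F : ℍ → ℂ} (hF : Nice F) {c : ℕ → ℂ}
    (h : ∀ τ : ℍ, HasSum (fun n : ℕ => c n • Function.Periodic.qParam (1 : ℝ) τ ^ n) (F τ)) (n : ℕ) :
    (qe F).coeff n = c n := by
  have h1 : AnalyticAt ℂ (cuspFunction 1 F) 0 := hF.analytic
  let _ : FunLike (ℍ → ℂ) ℍ ℂ := { coe := id, coe_injective := fun _ _ h => h }
  exact (qExpansion_coeff_unique (F := ℍ → ℂ) F one_pos h1 h n).symm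

theorem qe_G₀_coeff {k : ℕ} (hk : 3 ≤ k) (a : ZMod ℓ) (n : ℕ) :
    (qe (G ℓ k ![0, a])).coeff n = qc₀ ℓ k a n :=
  qe_coeff_of_hasSum (nice_G₀ hk a) (fun τ => hasSum_G₀ hk a τ) n

/-- `𝔾_a * (G_3 / cst_3) = G_4 / cst_4`. -/
theorem GG_mul (hodd : Odd ℓ) (a : ZMod ℓ) (ha : a ≠ 0) :
    GG ℓ a * ((cst ℓ 3 a)⁻¹ • G ℓ 3 ![0, a]) = (cst ℓ 4 a)⁻¹ • G ℓ 4 ![0, a] := by
  funext τ
  have h3 : G ℓ 3 ![0, a] τ ≠ 0 := G3_ne_zero hodd _ (vec_ne_zero a ha) τ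
  have c3 : cst ℓ 3 a ≠ 0 := cst_ne_zero hodd (Or.inl rfl) a ha
  have c4 : cst ℓ 4 a ≠ 0 := cst_ne_zero hodd (Or.inr rfl) a ha
  simp only [Pi.mul_apply, Pi.smul_apply, smul_eq_mul, GG, kap]
  field_simp

/-- **`𝔾_a = 1 + ...`, and `t_a a_n(𝔾_a) ∈ λ ℤ̄` for `n ≥ 1`.**
(`coeff_congr` with `X = qe 𝔾_a`, `B = (cst_3)⁻¹ • qe G_3`, `A = (cst_4)⁻¹ • qe G_4`, `t = t_a`, `l = λ`;
`coeff n B = K_3 coef₀ / (K_3 P_3)`.) -/
theorem qCoeff_GG (hodd : Odd ℓ) (a : ZMod ℓ) (ha : a ≠ 0) :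
    ModularFormClass.qCoeff (GG ℓ a) 0 = 1 ∧
      ∀ n : ℕ, 0 < n → ∃ y : ℂ, IsIntegral ℤ y ∧
        tt ℓ a * ModularFormClass.qCoeff (GG ℓ a) n = lam ℓ * y := by
  have c3 : cst ℓ 3 a ≠ 0 := cst_ne_zero hodd (Or.inl rfl) a ha
  have c4 : cst ℓ 4 a ≠ 0 := cst_ne_zero hodd (Or.inr rfl) a ha
  have hN3 : Nice (G ℓ 3 ![0, a]) := nice_G₀ (le_refl 3) a
  have hN4 : Nice (G ℓ 4 ![0, a]) := nice_G₀ (by norm_num) a
  have hmul : qe (GG ℓ a) * ((cst ℓ 3 a)⁻¹ • qe (G ℓ 3 ![0, a])) =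
      (cst ℓ 4 a)⁻¹ • qe (G ℓ 4 ![0, a]) := by
    rw [← hN3.qe_smul, ← hN4.qe_smul, ← (nice_GG hodd a ha).qe_mul (hN3.smul _), GG_mul hodd a ha]
  have hcoeff : ∀ (k : ℕ) (hk3 : 3 ≤ k) (hk : k = 3 ∨ k = 4) (n : ℕ), 0 < n →
      PowerSeries.coeff n ((cst ℓ k a)⁻¹ • qe (G ℓ k ![0, a])) =
        coef₀ (zeta ℓ) k a n / Pk k (ww ℓ a) := by
    intro k hk3 hk n hn
    have hK : K ℓ k ≠ 0 := K_ne_zero k
    rw [PowerSeries.coeff_smul, qe_G₀_coeff hk3, smul_eq_mul, cst_eq hk a ha, qc₀,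
      if_neg hn.ne', ww]
    by_cases hP : Pk k (zeta ℓ ^ a.val) = 0
    · rw [hP]; simp
    · field_simp
  have hcoeff0 : ∀ (k : ℕ) (hk3 : 3 ≤ k), cst ℓ k a ≠ 0 →
      PowerSeries.coeff 0 ((cst ℓ k a)⁻¹ • qe (G ℓ k ![0, a])) = 1 := by
    intro k hk3 hc
    rw [PowerSeries.coeff_smul, qe_G₀_coeff hk3, smul_eq_mul, qc₀, if_pos rfl, inv_mul_cancel₀ hc]
  exact coeff_congr (qe (GG ℓ a)) _ _ (tt ℓ a) (lam ℓ) (isIntegral_tt a) isIntegral_lam hmul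
    (hcoeff0 3 (le_refl 3) c3) (hcoeff0 4 (by norm_num) c4)
    (fun n hn => by
      obtain ⟨y, hy, h⟩ := coef₀_div_Pk3 hodd a ha n
      exact ⟨y, hy, by rw [hcoeff 3 (le_refl 3) (Or.inl rfl) n hn, h]⟩)
    (fun n hn => by
      obtain ⟨y, hy, h⟩ := coef₀_div_Pk4 a ha n
      exact ⟨y, hy, by rw [hcoeff 4 (by norm_num) (Or.inr rfl) n hn, h]⟩)

end Fermat.Agent.S48.E1
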