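import Fermat.Agent.S48.E1.Formal

/-!
# S48 / E1 : arithmetic in `ℤ[ζ_ℓ]`
TASKS S48/E1-UnitsA (up to `exists_inv`), S48/E1-UnitsB (`isIntegral_inv_ww` ... `coef₀_div_Pk4`).
Use `EIS/Inner.lean` (`zeta_pow_M`, `isPrimitiveRoot_zeta`, ...) and `EIS/Lead.lean` (`Pk_ne_zero`, `zeta_pow_val_ne_one`)
as black boxes.
-/

set_option autoImplicit false

open Complex

namespace Fermat.Agent.S48.E1

open Fermat.Agent.S48.EIS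

variable {ℓ : ℕ} [NeZero ℓ]

theorem isIntegral_zeta : IsIntegral ℤ (zeta ℓ) :=
  (isPrimitiveRoot_zeta (M := ℓ)).isIntegral (NeZero.pos ℓ)

theorem isIntegral_lam : IsIntegral ℤ (lam ℓ) :=
  isIntegral_one.sub isIntegral_zeta

theorem isIntegral_ww (a : ZMod ℓ) : IsIntegral ℤ (ww ℓ a) :=
  isIntegral_zeta.pow _

theorem isIntegral_tt (a : ZMod ℓ) : IsIntegral ℤ (tt ℓ a) := by
  have h4 : IsIntegral ℤ (4 : ℂ) := by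
    have := (isIntegral_algebraMap (R := ℤ) (A := ℂ) (x := 4)); simpa using this
  exact (isIntegral_one.add (h4.mul (isIntegral_ww a))).add ((isIntegral_ww a).pow 2)

theorem isIntegral_SS (a : ZMod ℓ) : IsIntegral ℤ (SS ℓ a) :=
  IsIntegral.sum _ fun i _ => isIntegral_zeta.pow i

/-- `1 - w_a = λ S_a` (`mul_neg_geom_sum` / `geom_sum_mul`). -/
theorem one_sub_ww (a : ZMod ℓ) : 1 - ww ℓ a = lam ℓ * SS ℓ a := by
  unfold ww lam SS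
  rw [mul_comm]
  exact (geom_sum_mul_neg (zeta ℓ) a.val).symm

/-- `1 - ζ^i = λ (integral)`. -/
theorem one_sub_zeta_pow (i : ℕ) : ∃ y : ℂ, IsIntegral ℤ y ∧ 1 - zeta ℓ ^ i = lam ℓ * y := by
  refine ⟨∑ j ∈ Finset.range i, zeta ℓ ^ j, IsIntegral.sum _ fun j _ => isIntegral_zeta.pow j, ?_⟩
  unfold lam
  rw [mul_comm]
  exact (geom_sum_mul_neg (zeta ℓ) i).symm

theorem one_add_ww_congr (a : ZMod ℓ) : ∃ y : ℂ, IsIntegral ℤ y ∧ 1 + ww ℓ a = 2 + lam ℓ * y := by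
  refine ⟨- SS ℓ a, (isIntegral_SS a).neg, ?_⟩
  have := one_sub_ww a
  linear_combination -this

theorem tt_congr (a : ZMod ℓ) : ∃ y : ℂ, IsIntegral ℤ y ∧ tt ℓ a = 6 + lam ℓ * y := by
  have h5 : IsIntegral ℤ (5 : ℂ) := by
    have := (isIntegral_algebraMap (R := ℤ) (A := ℂ) (x := 5)); simpa using this
  refine ⟨- SS ℓ a * (5 + ww ℓ a), (isIntegral_SS a).neg.mul (h5.add (isIntegral_ww a)), ?_⟩
  have := one_sub_ww a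
  unfold tt
  linear_combination (-(5 + ww ℓ a)) * this

theorem SS_congr (a : ZMod ℓ) : ∃ y : ℂ, IsIntegral ℤ y ∧ SS ℓ a = (a.val : ℂ) + lam ℓ * y := by
  unfold SS
  generalize a.val = n
  induction n with
  | zero => exact ⟨0, isIntegral_zero, by simp⟩
  | succ n ih =>
    obtain ⟨y, hy, h⟩ := ih
    obtain ⟨z, hz, h'⟩ := one_sub_zeta_pow (ℓ := ℓ) n
    refine ⟨y - z, hy.sub hz, ?_⟩
    rw [Finset.sum_range_succ, h]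
    push_cast
    linear_combination -h'

/-- `ℓ = ∑_{i<ℓ} (1 - ζ^i) = λ (integral)`   (`∑_{i<ℓ} ζ^i = 0` as `ζ ≠ 1`, `ζ^ℓ = 1`). -/
theorem natCast_eq_lam_mul (hℓ : 1 < ℓ) : ∃ y : ℂ, IsIntegral ℤ y ∧ (ℓ : ℂ) = lam ℓ * y := by
  have h0 : ∑ i ∈ Finset.range ℓ, zeta ℓ ^ i = 0 :=
    (isPrimitiveRoot_zeta (M := ℓ)).geom_sum_eq_zero hℓ
  choose y hy h using fun i : ℕ => one_sub_zeta_pow (ℓ := ℓ) i
  refine ⟨∑ i ∈ Finset.range ℓ, y i, IsIntegral.sum _ fun i _ => hy i, ?_⟩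
  rw [Finset.mul_sum]
  have : ∑ i ∈ Finset.range ℓ, (1 - zeta ℓ ^ i) = (ℓ : ℂ) := by
    rw [Finset.sum_sub_distrib, h0]; simp
  rw [← this]
  exact Finset.sum_congr rfl fun i _ => h i

/-- `λ^ℓ = ℓ (integral)` for `ℓ` an odd prime -/
theorem lam_pow_eq (hp : ℓ.Prime) (hodd : Odd ℓ) : ∃ y : ℂ, IsIntegral ℤ y ∧ lam ℓ ^ ℓ = (ℓ : ℂ) * y := by
  -- work in the subring of integral elements
  let R := integralClosure ℤ ℂ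
  let z : R := ⟨zeta ℓ, isIntegral_zeta⟩
  have hdvd : (ℓ : R) ∣ (1 + (-z)) ^ ℓ - 1 ^ ℓ - (-z) ^ ℓ := by
    have := (add_pow_prime_eq hp (1 : R) (-z))
    rw [this]
    refine ⟨1 * -z * ∑ k ∈ Finset.Ioo 0 ℓ, 1 ^ (k - 1) * (-z) ^ (ℓ - k - 1) * ((ℓ.choose k / ℓ : ℕ) : R), ?_⟩
    generalize (∑ k ∈ Finset.Ioo 0 ℓ, 1 ^ (k - 1) * (-z) ^ (ℓ - k - 1) * ((ℓ.choose k / ℓ : ℕ) : R)) = T
    ring
  obtain ⟨c, hc⟩ := hdvd
  refine ⟨(c : ℂ), c.2, ?_⟩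
  have hz : z ^ ℓ = 1 := by
    apply Subtype.ext
    simpa using (zeta_pow_M (M := ℓ))
  have h1 : (1 + (-z)) ^ ℓ = (ℓ : R) * c := by
    have : (-z) ^ ℓ = -1 := by rw [hodd.neg_pow, hz]
    rw [this] at hc
    linear_combination hc
  have := congrArg (fun x : R => (x : ℂ)) h1
  simp only [R] at this
  push_cast at this
  unfold lam
  rw [sub_eq_add_neg]
  simpa [z] using this

/-- an integer `≡ m (mod ℓ)` is `≡ m (mod λ)`. -/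
theorem intCast_congr (hℓ : 1 < ℓ) (m n : ℤ) (h : (m : ZMod ℓ) = (n : ZMod ℓ)) :
    ∃ y : ℂ, IsIntegral ℤ y ∧ (m : ℂ) = (n : ℂ) + lam ℓ * y := by
  obtain ⟨y, hy, hl⟩ := natCast_eq_lam_mul hℓ
  have hd : (ℓ : ℤ) ∣ m - n := by
    rw [← ZMod.intCast_zmod_eq_zero_iff_dvd]; push_cast; rw [h, sub_self]
  obtain ⟨c, hc⟩ := hd
  refine ⟨y * c, hy.mul (by simpa using (isIntegral_algebraMap (R := ℤ) (A := ℂ) (x := c))), ?_⟩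
  have : (m : ℂ) - n = (ℓ : ℂ) * c := by exact_mod_cast congrArg (fun t : ℤ => (t : ℂ)) hc
  linear_combination this + (c : ℂ) * hl

/-- an element `≡ m (mod λ)` with `m` prime to `ℓ` is invertible mod `λ`. -/
theorem exists_inv (hℓ : 1 < ℓ) (m : ℤ) (hm : IsCoprime m (ℓ : ℤ)) (D y : ℂ) (hy : IsIntegral ℤ y)
    (hD : D = (m : ℂ) + lam ℓ * y) :
    ∃ e z : ℂ, IsIntegral ℤ e ∧ IsIntegral ℤ z ∧ D * e = 1 + lam ℓ * z := by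
  obtain ⟨a, b, hab⟩ := hm
  obtain ⟨w, hw, hl⟩ := natCast_eq_lam_mul hℓ
  have hia : IsIntegral ℤ (a : ℂ) := by simpa using (isIntegral_algebraMap (R := ℤ) (A := ℂ) (x := a))
  have hib : IsIntegral ℤ (b : ℂ) := by simpa using (isIntegral_algebraMap (R := ℤ) (A := ℂ) (x := b))
  refine ⟨a, y * a - b * w, hia, (hy.mul hia).sub (hib.mul hw), ?_⟩
  have : (a : ℂ) * m + b * (ℓ : ℂ) = 1 := by exact_mod_cast congrArg (fun t : ℤ => (t : ℂ)) hab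
  rw [hD]
  linear_combination this - (b : ℂ) * hl

/-- `w⁻¹ = w^(ℓ-1)`. -/
theorem isIntegral_inv_ww (a : ZMod ℓ) : IsIntegral ℤ (ww ℓ a)⁻¹ := by
  have h1 : ww ℓ a ^ ℓ = 1 := by
    rw [ww, ← pow_mul, mul_comm, pow_mul, zeta_pow_M, one_pow]
  have hℓ : 0 < ℓ := Nat.pos_of_ne_zero (NeZero.ne ℓ)
  have h2 : (ww ℓ a)⁻¹ = ww ℓ a ^ (ℓ - 1) := by
    apply inv_eq_of_mul_eq_one_right
    rw [← pow_succ', Nat.sub_add_cancel hℓ, h1]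
  rw [h2]
  exact (isIntegral_ww a).pow _

/-- `(1 + w)⁻¹ = ∑_{i ≤ h} w^{2i}`, `ℓ = 2h+1`, `w ≠ 1`:
`(1 - w) ((1 + w) ∑_{i<h+1} w^{2i} - 1) = 1 - w^{2h+2} - (1 - w) = 0`. -/
theorem isIntegral_inv_one_add_ww (hodd : Odd ℓ) (a : ZMod ℓ) (ha : a ≠ 0) :
    IsIntegral ℤ (1 + ww ℓ a)⁻¹ := by
  obtain ⟨h, hh⟩ := hodd
  have h1 : ww ℓ a ^ ℓ = 1 := by
    rw [ww, ← pow_mul, mul_comm, pow_mul, zeta_pow_M, one_pow]
  have hw1 : 1 - ww ℓ a ≠ 0 := sub_ne_zero.mpr (Ne.symm (zeta_pow_val_ne_one a ha))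
  have h2 : (1 - ww ℓ a) *
      ((1 + ww ℓ a) * ∑ i ∈ Finset.range (h + 1), (ww ℓ a ^ 2) ^ i - 1) = 0 := by
    have h3 := mul_neg_geom_sum (ww ℓ a ^ 2) (h + 1)
    have h4 : (ww ℓ a ^ 2) ^ (h + 1) = ww ℓ a := by
      rw [← pow_mul]
      have : 2 * (h + 1) = ℓ + 1 := by omega
      rw [this, pow_succ, h1, one_mul]
    rw [h4] at h3
    linear_combination h3
  have h5 : (1 + ww ℓ a) * ∑ i ∈ Finset.range (h + 1), (ww ℓ a ^ 2) ^ i = 1 :=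
    sub_eq_zero.mp ((mul_eq_zero.mp h2).resolve_left hw1)
  rw [inv_eq_of_mul_eq_one_right h5]
  exact IsIntegral.sum _ fun i _ => ((isIntegral_ww a).pow 2).pow i

theorem isIntegral_coef₀ (k : ℕ) (a : ZMod ℓ) (n : ℕ) : IsIntegral ℤ (coef₀ (zeta ℓ) k a n) := by
  unfold coef₀
  refine IsIntegral.sum _ fun m _ => ?_
  refine IsIntegral.mul ((isIntegral_algebraMap (R := ℤ) (A := ℂ) (x := (m : ℤ))).pow _ |> fun h => by simpa using h) (IsIntegral.add (isIntegral_zeta.pow _) ?_)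
  exact IsIntegral.mul ((isIntegral_one.neg).pow _) (isIntegral_zeta.pow _)

theorem tt_ne_zero (a : ZMod ℓ) : tt ℓ a ≠ 0 := by
  intro h
  have h1 : ww ℓ a ^ ℓ = 1 := by
    rw [ww, ← pow_mul, mul_comm, pow_mul, zeta_pow_M, one_pow]
  have hn : ‖ww ℓ a‖ = 1 := Complex.norm_eq_one_of_pow_eq_one h1 (NeZero.ne ℓ)
  have h2 : 4 * ww ℓ a = -(1 + ww ℓ a ^ 2) := by
    unfold tt at h
    linear_combination h
  have h3 : ‖4 * ww ℓ a‖ = 4 := by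
    rw [norm_mul, hn, mul_one]
    simp
  have h4 : ‖-(1 + ww ℓ a ^ 2)‖ ≤ 2 := by
    rw [norm_neg]
    calc ‖1 + ww ℓ a ^ 2‖ ≤ ‖(1 : ℂ)‖ + ‖ww ℓ a ^ 2‖ := norm_add_le _ _
      _ = 2 := by rw [norm_pow, hn]; norm_num
  rw [← h2, h3] at h4
  norm_num at h4

theorem one_add_ww_ne_zero (hodd : Odd ℓ) (a : ZMod ℓ) : 1 + ww ℓ a ≠ 0 := by
  intro h
  have h1 : ww ℓ a ^ ℓ = 1 := by
    rw [ww, ← pow_mul, mul_comm, pow_mul, zeta_pow_M, one_pow]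
  have h2 : ww ℓ a = -1 := by linear_combination h
  rw [h2, hodd.neg_one_pow] at h1
  norm_num at h1

theorem one_sub_ww_ne_zero (a : ZMod ℓ) (ha : a ≠ 0) : 1 - ww ℓ a ≠ 0 := by
  exact sub_ne_zero.mpr (Ne.symm (zeta_pow_val_ne_one a ha))

theorem ww_ne_zero (a : ZMod ℓ) : ww ℓ a ≠ 0 := by
  intro h
  have h1 : ww ℓ a ^ ℓ = 1 := by
    rw [ww, ← pow_mul, mul_comm, pow_mul, zeta_pow_M, one_pow]
  rw [h, zero_pow (NeZero.ne ℓ)] at h1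
  exact zero_ne_one h1

/-- `coef₀ / P_3(w) = coef₀ (1-w)³ w⁻¹ (1+w)⁻¹ ∈ λ ℤ̄`. -/
theorem coef₀_div_Pk3 (hodd : Odd ℓ) (a : ZMod ℓ) (ha : a ≠ 0) (n : ℕ) :
    ∃ y : ℂ, IsIntegral ℤ y ∧ coef₀ (zeta ℓ) 3 a n / Pk 3 (ww ℓ a) = lam ℓ * y := by
  refine ⟨coef₀ (zeta ℓ) 3 a n * (lam ℓ ^ 2 * SS ℓ a ^ 3) * ((ww ℓ a)⁻¹ * (1 + ww ℓ a)⁻¹), ?_, ?_⟩
  · exact ((isIntegral_coef₀ 3 a n).mul ((isIntegral_lam.pow 2).mul ((isIntegral_SS a).pow 3))).mul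
      ((isIntegral_inv_ww a).mul (isIntegral_inv_one_add_ww hodd a ha))
  · have h1 := ww_ne_zero a
    have h2 := one_add_ww_ne_zero hodd a
    have h3 := one_sub_ww_ne_zero a ha
    have h4 := one_sub_ww a
    have h5 : Pk 3 (ww ℓ a) = ww ℓ a * (1 + ww ℓ a) / (1 - ww ℓ a) ^ 3 := by simp [Pk]
    rw [h5]
    have h6 : coef₀ (zeta ℓ) 3 a n / (ww ℓ a * (1 + ww ℓ a) / (1 - ww ℓ a) ^ 3) =
        coef₀ (zeta ℓ) 3 a n * (1 - ww ℓ a) ^ 3 * ((ww ℓ a)⁻¹ * (1 + ww ℓ a)⁻¹) := by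
      field_simp
    rw [h6, h4]
    ring

/-- `t coef₀ / P_4(w) = coef₀ (1-w)⁴ w⁻¹ ∈ λ ℤ̄`. -/
theorem coef₀_div_Pk4 (a : ZMod ℓ) (ha : a ≠ 0) (n : ℕ) :
    ∃ y : ℂ, IsIntegral ℤ y ∧ tt ℓ a * (coef₀ (zeta ℓ) 4 a n / Pk 4 (ww ℓ a)) = lam ℓ * y := by
  refine ⟨coef₀ (zeta ℓ) 4 a n * (lam ℓ ^ 3 * SS ℓ a ^ 4) * (ww ℓ a)⁻¹, ?_, ?_⟩
  · exact ((isIntegral_coef₀ 4 a n).mul ((isIntegral_lam.pow 3).mul ((isIntegral_SS a).pow 4))).mul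
      (isIntegral_inv_ww a)
  · have h1 := ww_ne_zero a
    have h2 := tt_ne_zero a
    have h3 := one_sub_ww_ne_zero a ha
    have h4 := one_sub_ww a
    have h5 : Pk 4 (ww ℓ a) = ww ℓ a * tt ℓ a / (1 - ww ℓ a) ^ 4 := by simp [Pk, tt]
    rw [h5]
    have h6 : tt ℓ a * (coef₀ (zeta ℓ) 4 a n / (ww ℓ a * tt ℓ a / (1 - ww ℓ a) ^ 4)) =
        coef₀ (zeta ℓ) 4 a n * (1 - ww ℓ a) ^ 4 * (ww ℓ a)⁻¹ := by
      field_simp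
    rw [h6, h4]
    ring

end Fermat.Agent.S48.E1
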